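import Mathlib
import Fermat.Prelude.Def_ModularCurve_JqCoeff
import Fermat.Prelude.Def_GaloisRep_Flat

/-!
# S18 / package HAUPT (p = 7): definitions  (PL: helper442)

FROZEN definitions of the package.  Everything else in the package imports this file.

* `hauptV r P`   : the formal operator `V_r : q ↦ q^r` on `ℤ⟦X⟧`.
* `hauptU2`      : `(E(q)/E(q²))^24`, `E = ∏ (1 - qⁿ)`  (a unit of `ℤ⟦X⟧`, constant term 1).
* `hauptU3`      : `(E(q)/E(q³))^12`.
* `hauptT2 K`    : the Hauptmodul `t₂ = Δ(q)/Δ(q²) = q⁻¹ · hauptU2` of `X₀(2)`, in `K((q))`.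
* `hauptT3 K`    : the Hauptmodul `t₃ = (Δ(q)/Δ(q³))^(1/2) = q⁻¹ · hauptU3` of `X₀(3)`, in `K((q))`.

Prelude objects used: `ModularCurve.eisenstein4` (`E₄ ∈ ℤ⟦X⟧`), `ModularCurve.etaProd` (`E`),
`ModularCurve.dedekindEtaUnit = etaProd ^ 24`, `ModularCurve.jNum = E₄³ / E^24`,
`ModularCurve.jqModC K = q⁻¹ · jNum` (`j` in `K((q))`), `ModularCurve.jqNModC K N = j(q^N)`.
-/

set_option autoImplicit false

noncomputable section

namespace Fermat.Agent.S18

open ModularCurve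

/-- The formal operator `V_r : q ↦ q^r` on integer power series. -/
def hauptV (r : ℕ) (P : PowerSeries ℤ) : PowerSeries ℤ :=
  PowerSeries.mk fun n => if r ∣ n then PowerSeries.coeff (n / r) P else 0

/-- `(E(q)/E(q²))^24`: the unit part of `t₂ = Δ(q)/Δ(q²)`. -/
def hauptU2 : PowerSeries ℤ :=
  dedekindEtaUnit * (hauptV 2 dedekindEtaUnit).invOfUnit 1

/-- `(E(q)/E(q³))^12`: the unit part of `t₃ = (Δ(q)/Δ(q³))^(1/2)`. -/
def hauptU3 : PowerSeries ℤ :=
  etaProd ^ 12 * (hauptV 3 (etaProd ^ 12)).invOfUnit 1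

/-- The Hauptmodul `t₂ = q⁻¹ ∏ ((1 - qⁿ)/(1 - q²ⁿ))^24` of `X₀(2)` as a Laurent series over `K`. -/
def hauptT2 (K : Type*) [CommRing K] : LaurentSeries K :=
  HahnSeries.single (-1 : ℤ) 1 * HahnSeries.ofPowerSeries ℤ K (hauptU2.map (Int.castRingHom K))

/-- The Hauptmodul `t₃ = q⁻¹ ∏ ((1 - qⁿ)/(1 - q³ⁿ))^12` of `X₀(3)` as a Laurent series over `K`. -/
def hauptT3 (K : Type*) [CommRing K] : LaurentSeries K :=
  HahnSeries.single (-1 : ℤ) 1 * HahnSeries.ofPowerSeries ℤ K (hauptU3.map (Int.castRingHom K))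

end Fermat.Agent.S18

end
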