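import Fermat.Agent.S18.HAUPT.Defs
import Fermat.Agent.S18.HAUPT9469.P012

/-!
# S18 / HAUPT, piece 1: the first level-3 identity in `ℤ⟦X⟧`

With `A = E^12 = etaProd ^ 12` (so `t₃ = q⁻¹ A / V₃A`), `E₄ = eisenstein4`:

* `haupt_sturm3a` is `j t₃³ = (t₃ + 27)(t₃ + 243)³` multiplied by `q⁴ A² (V₃A)⁴ / A²`, i.e.
  `E₄³ η(q)^12 η(q³)^12 = (η(q)^12 + 27 η(q³)^12)(η(q)^12 + 243 η(q³)^12)³`.

Proof idea: `A² = D = dedekindEtaUnit`; only `Δ(q) = qD`, `Δ(q³) = q³ V₃D` are modular forms on `Γ₀(3)`
available from the landed trees, so write the right-hand side as `P + A·(V₃A)·Q` with `P, Q`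
polynomials in `D`, `X² V₃D`, move everything even to one side and square: an identity between
modular forms of weight 48 on `Γ₀(3)` (index 4, Sturm bound 16).  Then take the square root in the
domain `ℤ⟦X⟧` (signs by constant coefficients).  Tools: see `P0.lean`.
Numerics: verified to `q^60`.
-/

set_option autoImplicit false

namespace Fermat.Agent.S18

open ModularCurve PowerSeries

theorem haupt_sturm3a :
    eisenstein4 ^ 3 * etaProd ^ 12 * hauptV 3 (etaProd ^ 12)
      = (etaProd ^ 12 + 27 * X * hauptV 3 (etaProd ^ 12))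
        * (etaProd ^ 12 + 243 * X * hauptV 3 (etaProd ^ 12)) ^ 3 := by
  exact HAUPT9469.haupt_sturm3a

end Fermat.Agent.S18
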