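import Fermat.Agent.S18.HAUPT.Defs
import Fermat.Agent.S18.HAUPT9469.P012

/-!
# S18 / HAUPT, piece 2: the second level-3 identity in `ℤ⟦X⟧`

With `A = E^12 = etaProd ^ 12`:

* `haupt_sturm3b` is `j(q³) t₃ = (t₃ + 27)(t₃ + 3)³`, i.e.
  `E₄(q³)³ η(q)^12 η(q³)^12 = (η(q)^12 + 27 η(q³)^12)(η(q)^12 + 3 η(q³)^12)³`.

Same method as piece 1 (weight 48 on `Γ₀(3)`, Sturm bound 16, then a square root), or deduce it
from piece 1 by the Fricke involution `W₃` (`Fermat.Agent.S16.TraceCusp.wForm`).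
Numerics: verified to `q^60`.
-/

set_option autoImplicit false

namespace Fermat.Agent.S18

open ModularCurve PowerSeries

theorem haupt_sturm3b :
    (hauptV 3 eisenstein4) ^ 3 * etaProd ^ 12 * hauptV 3 (etaProd ^ 12)
      = (etaProd ^ 12 + 27 * X * hauptV 3 (etaProd ^ 12))
        * (etaProd ^ 12 + 3 * X * hauptV 3 (etaProd ^ 12)) ^ 3 := by
  exact HAUPT9469.haupt_sturm3b

end Fermat.Agent.S18
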