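import Fermat.Agent.S18.HAUPT.Defs
import Fermat.Agent.S18.HAUPT9469.P012

/-!
# S18 / HAUPT, piece 0: the two level-2 identities in `ℤ⟦X⟧`

With `D = E^24 = dedekindEtaUnit` (so `Δ(q) = q D`, `Δ(q²) = q² V₂D`), `E₄ = eisenstein4`:

* `haupt_sturm2a` is  `E₄(q)³ Δ(q) Δ(q²) = (Δ(q) + 256 Δ(q²))³`   (⇔ `j t₂² = (t₂ + 256)³`),
* `haupt_sturm2b` is  `E₄(q²)³ Δ(q) Δ(q²) = (Δ(q) + 16 Δ(q²))³`   (⇔ `j(q²) t₂ = (t₂ + 16)³`),

both divided by `q³`.  Both sides are modular forms of weight 36 on `Γ₀(2)`; Sturm bound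
`36 · 3 / 12 = 9`.  Tools (all landed on origin/main, import freely):
`Fermat.Agent.S16.TraceCusp.vForm / resForm / qCoeff_vFun` (`V_p` of a level-one form on `Γ₀(p)`),
`Fermat.Agent.S16.HeckeTrick6016` (`HasCoeffs`, `.mul`, `.add`, `.smul`, `HasCoeffs.eq_zero_of_sturm`),
`Fermat.Agent.S20.index_Gamma0` (index `= dedekindPsi`), `Fermat.Agent.S24.D9744.qExpansion_E4`,
`Fermat.Agent.S24.D9744.qExpansion_discriminant` (`q`-expansions of Mathlib's `E₄`, `Δ` in terms of the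
Prelude series), Prelude `ModularForm.sturm_bound_Gamma0`.
Numerics: verified to `q^60` (`notes/S18_HAUPT_check.py`).
-/

set_option autoImplicit false

namespace Fermat.Agent.S18

open ModularCurve PowerSeries

theorem haupt_sturm2a :
    eisenstein4 ^ 3 * dedekindEtaUnit * hauptV 2 dedekindEtaUnit
      = (dedekindEtaUnit + 256 * X * hauptV 2 dedekindEtaUnit) ^ 3 := by
  exact HAUPT9469.haupt_sturm2a

theorem haupt_sturm2b :
    (hauptV 2 eisenstein4) ^ 3 * dedekindEtaUnit * hauptV 2 dedekindEtaUnit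
      = (dedekindEtaUnit + 16 * X * hauptV 2 dedekindEtaUnit) ^ 3 := by
  exact HAUPT9469.haupt_sturm2b

end Fermat.Agent.S18
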