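import Fermat.Agent.S18.HAUPT.P0
import Fermat.Agent.S18.HAUPT.P1
import Fermat.Agent.S18.HAUPT.P2
import Fermat.Agent.S18.HAUPT9469.P3

/-!
# S18 / HAUPT, piece 3: the Hauptmodul identities in `K((q))`, any commutative ring `K`

Formal consequences of pieces 0-2 (`haupt_sturm2a/2b/3a/3b`, which you may use: import the
skeleton files `HAUPT/P0.lean`, `P1.lean`, `P2.lean`):

* `hauptT2_jq`   : `j · t₂² = (t₂ + 256)³`
* `hauptT2_jq2`  : `j(q²) · t₂ = (t₂ + 16)³`
* `hauptT3_jq`   : `j · t₃³ = (t₃ + 27)(t₃ + 243)³`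
* `hauptT3_jq3`  : `j(q³) · t₃ = (t₃ + 27)(t₃ + 3)³`
* shape of `t_r`: `t_r = q⁻¹ · (unit power series with constant term 1)`, compatibility with
  coefficient maps.
-/

set_option autoImplicit false

namespace Fermat.Agent.S18

open ModularCurve

theorem hauptU2_constantCoeff : PowerSeries.constantCoeff hauptU2 = 1 := by
  exact HAUPT9469.hauptU2_constantCoeff

theorem hauptU3_constantCoeff : PowerSeries.constantCoeff hauptU3 = 1 := by
  exact HAUPT9469.hauptU3_constantCoeff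

theorem hauptT2_map {K K' : Type*} [CommRing K] [CommRing K'] (f : K →+* K') :
    (hauptT2 K).map f = hauptT2 K' := by
  exact HAUPT9469.hauptT2_map f

theorem hauptT3_map {K K' : Type*} [CommRing K] [CommRing K'] (f : K →+* K') :
    (hauptT3 K).map f = hauptT3 K' := by
  exact HAUPT9469.hauptT3_map f

theorem hauptT2_coeff_neg_one (K : Type*) [CommRing K] : (hauptT2 K).coeff (-1) = 1 := by
  exact HAUPT9469.hauptT2_coeff_neg_one K

theorem hauptT2_coeff_of_lt (K : Type*) [CommRing K] {k : ℤ} (hk : k < -1) :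
    (hauptT2 K).coeff k = 0 := by
  exact HAUPT9469.hauptT2_coeff_of_lt K hk

theorem hauptT3_coeff_neg_one (K : Type*) [CommRing K] : (hauptT3 K).coeff (-1) = 1 := by
  exact HAUPT9469.hauptT3_coeff_neg_one K

theorem hauptT3_coeff_of_lt (K : Type*) [CommRing K] {k : ℤ} (hk : k < -1) :
    (hauptT3 K).coeff k = 0 := by
  exact HAUPT9469.hauptT3_coeff_of_lt K hk

/-- `t₂` is a unit of `K((q))`, for every nontrivial commutative ring `K`. -/
theorem hauptT2_isUnit (K : Type*) [CommRing K] : IsUnit (hauptT2 K) := by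
  exact HAUPT9469.hauptT2_isUnit K

theorem hauptT3_isUnit (K : Type*) [CommRing K] : IsUnit (hauptT3 K) := by
  exact HAUPT9469.hauptT3_isUnit K

/-- `j · t₂² = (t₂ + 256)³`. -/
theorem hauptT2_jq (K : Type*) [CommRing K] :
    jqModC K * hauptT2 K ^ 2 = (hauptT2 K + 256) ^ 3 := by
  exact HAUPT9469.hauptT2_jq K

/-- `j(q²) · t₂ = (t₂ + 16)³`. -/
theorem hauptT2_jq2 (K : Type*) [CommRing K] :
    jqNModC K 2 * hauptT2 K = (hauptT2 K + 16) ^ 3 := by
  exact HAUPT9469.hauptT2_jq2 K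

/-- `j · t₃³ = (t₃ + 27)(t₃ + 243)³`. -/
theorem hauptT3_jq (K : Type*) [CommRing K] :
    jqModC K * hauptT3 K ^ 3 = (hauptT3 K + 27) * (hauptT3 K + 243) ^ 3 := by
  exact HAUPT9469.hauptT3_jq K

/-- `j(q³) · t₃ = (t₃ + 27)(t₃ + 3)³`. -/
theorem hauptT3_jq3 (K : Type*) [CommRing K] :
    jqNModC K 3 * hauptT3 K = (hauptT3 K + 27) * (hauptT3 K + 3) ^ 3 := by
  exact HAUPT9469.hauptT3_jq3 K

end Fermat.Agent.S18
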