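import Fermat.Agent.S18.HAUPT.P3
import Fermat.Agent.S18.HAUPT7666.P4

/-!
# S18 / HAUPT, piece 4: `t_r ∈ ℚ(j, j(q^r))` and `A_fin(r) = R[t, 1/t]` (characteristic 0)

* `hauptT2_mem`, `hauptT3_mem`: `t_r` lies in the function field `ℚ(j, j(q^r))` of `X₀(r)`.
  Proof: `ℚ(j, j_r) ⊆ ℚ(j, t)` by `hauptT*_jq*` (piece 3, usable via the skeleton), `[ℚ(j,t) : ℚ(j)] ≤ r + 1`
  (`t` is a root of a monic polynomial of degree `r + 1` over `ℚ(j)`), and `[ℚ(j, j_r) : ℚ(j)] ≥ ψ(r) = r + 1`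
  (landed: `Fermat.Agent.S24.finrank_jBar`, `Fermat.Agent.S24.card_Q0` over `Qbar`; descend the inequality to `ℚ`).
* `haupt_integralClosure2`: for `R = ℤ_(3)`: an element of `ℚ(j, j(q²))` is integral over `R[j]` iff it lies in
  `R[t₂, 1/t₂]`.  (`t`, `1/t` are integral over `R[j]` because `256` is a unit of `R`; `j ∈ R[t, 1/t]`;
  `R[t, 1/t]` is integrally closed with fraction field `ℚ(t) = ℚ(j, j(q²))`.)
* `haupt_integralClosure3`: same for `R = ℤ_(2)`, `r = 3`.
-/

set_option autoImplicit false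

namespace Fermat.Agent.S18

open ModularCurve

theorem hauptT2_transcendental (K : Type*) [Field K] : Transcendental K (hauptT2 K) := by
  exact HAUPT7666.hauptT2_transcendental K

theorem hauptT3_transcendental (K : Type*) [Field K] : Transcendental K (hauptT3 K) := by
  exact HAUPT7666.hauptT3_transcendental K

theorem hauptT2_mem : hauptT2 ℚ ∈ modularFunctionField 2 := by
  exact HAUPT7666.hauptT2_mem

theorem hauptT3_mem : hauptT3 ℚ ∈ modularFunctionField 3 := by
  exact HAUPT7666.hauptT3_mem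

/-- `ℚ(X₀(2)) = ℚ(t₂)`. -/
theorem haupt_modularFunctionField_two :
    modularFunctionField 2 = IntermediateField.adjoin ℚ {hauptT2 ℚ} := by
  exact HAUPT7666.haupt_modularFunctionField_two

/-- `ℚ(X₀(3)) = ℚ(t₃)`. -/
theorem haupt_modularFunctionField_three :
    modularFunctionField 3 = IntermediateField.adjoin ℚ {hauptT3 ℚ} := by
  exact HAUPT7666.haupt_modularFunctionField_three

/-- `A_fin(2) = ℤ_(3)[t₂, 1/t₂]`. -/
theorem haupt_integralClosure2 (x : LaurentSeries ℚ) (hx : x ∈ modularFunctionField 2) :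
    IsIntegral (Algebra.adjoin (GaloisRep.ratLocalizedAt 3) {jq}) x ↔
      x ∈ Algebra.adjoin (GaloisRep.ratLocalizedAt 3) {hauptT2 ℚ, (hauptT2 ℚ)⁻¹} := by
  exact HAUPT7666.haupt_integralClosure2 x hx

/-- `A_fin(3) = ℤ_(2)[t₃, 1/t₃]`. -/
theorem haupt_integralClosure3 (x : LaurentSeries ℚ) (hx : x ∈ modularFunctionField 3) :
    IsIntegral (Algebra.adjoin (GaloisRep.ratLocalizedAt 2) {jq}) x ↔
      x ∈ Algebra.adjoin (GaloisRep.ratLocalizedAt 2) {hauptT3 ℚ, (hauptT3 ℚ)⁻¹} := by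
  exact HAUPT7666.haupt_integralClosure3 x hx

end Fermat.Agent.S18
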