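import Fermat.Agent.S18.HAUPT.P3
import Fermat.Agent.S18.HAUPT7049.P5

/-!
# S18 / HAUPT, piece 5: the Hauptmoduln in characteristic `ℓ`  (`ℓ = 3, r = 2` and `ℓ = 2, r = 3`)

`k` a field of characteristic `ℓ`, `jbar = jqModC k`, `tbar = hauptT_r k` in `k((q))`.

* `jbar · tbar^r = (tbar + 1)^(r+1)`   (`256 ≡ 1 (3)`, `27 ≡ 243 ≡ 1 (2)`);
* `1/tbar = tbar^(r-1) (jbar - tbar)`, hence `k[tbar, 1/tbar] = k[jbar][tbar]` is monogenic over `k[jbar]`,
  generated by a root of `f = T^(r+1) - jbar T^r + 1`, and `f'(tbar) = jbar · tbar^(r-1)` (a unit times `jbar`);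
* `[k(tbar) : k(jbar)] = r + 1`.
Use piece 3 via the skeleton.
-/

set_option autoImplicit false

namespace Fermat.Agent.S18

open ModularCurve Polynomial

theorem hauptT2_char3 (k : Type*) [Field k] [CharP k 3] :
    jqModC k * hauptT2 k ^ 2 = (hauptT2 k + 1) ^ 3 := by
  exact HAUPT7049.hauptT2_char3 k

theorem hauptT3_char2 (k : Type*) [Field k] [CharP k 2] :
    jqModC k * hauptT3 k ^ 3 = (hauptT3 k + 1) ^ 4 := by
  exact HAUPT7049.hauptT3_char2 k

theorem hauptT2_inv_char3 (k : Type*) [Field k] [CharP k 3] :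
    (hauptT2 k)⁻¹ = hauptT2 k * (jqModC k - hauptT2 k) := by
  exact HAUPT7049.hauptT2_inv_char3 k

theorem hauptT3_inv_char2 (k : Type*) [Field k] [CharP k 2] :
    (hauptT3 k)⁻¹ = hauptT3 k ^ 2 * (jqModC k - hauptT3 k) := by
  exact HAUPT7049.hauptT3_inv_char2 k

/-- `k[tbar, 1/tbar] = k[jbar, tbar]`  (`ℓ = 3`, `r = 2`). -/
theorem haupt_adjoin_char3 (k : Type*) [Field k] [CharP k 3] :
    Algebra.adjoin k {hauptT2 k, (hauptT2 k)⁻¹} = Algebra.adjoin k {jqModC k, hauptT2 k} := by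
  exact HAUPT7049.haupt_adjoin_char3 k

/-- `k[tbar, 1/tbar] = k[jbar, tbar]`  (`ℓ = 2`, `r = 3`). -/
theorem haupt_adjoin_char2 (k : Type*) [Field k] [CharP k 2] :
    Algebra.adjoin k {hauptT3 k, (hauptT3 k)⁻¹} = Algebra.adjoin k {jqModC k, hauptT3 k} := by
  exact HAUPT7049.haupt_adjoin_char2 k

/-- `tbar` is a root of `f = T³ - jbar T² + 1` over `k[jbar]`, and `f'(tbar) = jbar · tbar`. -/
theorem haupt_minpoly_char3 (k : Type*) [Field k] [CharP k 3] :
    minpoly (IntermediateField.adjoin k {jqModC k}) (hauptT2 k)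
      = X ^ 3 - C (⟨jqModC k, IntermediateField.mem_adjoin_simple_self k _⟩ :
          IntermediateField.adjoin k {jqModC k}) * X ^ 2 + 1 := by
  exact HAUPT7049.haupt_minpoly_char3 k

/-- `tbar` is a root of `f = T⁴ - jbar T³ + 1` over `k[jbar]`, and `f'(tbar) = jbar · tbar²`. -/
theorem haupt_minpoly_char2 (k : Type*) [Field k] [CharP k 2] :
    minpoly (IntermediateField.adjoin k {jqModC k}) (hauptT3 k)
      = X ^ 4 - C (⟨jqModC k, IntermediateField.mem_adjoin_simple_self k _⟩ :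
          IntermediateField.adjoin k {jqModC k}) * X ^ 3 + 1 := by
  exact HAUPT7049.haupt_minpoly_char2 k

end Fermat.Agent.S18
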