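import Fermat.Agent.S18.HAUPT.P3
import Fermat.Prelude.Def_ModularCurve_IgusaScheme
import Fermat.Agent.S18.HAUPT3442.P6

/-!
# S18 / HAUPT, piece 6: T-design (F2) in the language of the Prelude chart algebras

`chartAlgFin M ℓ` (Prelude, `ModularCurve.IgusaScheme`) is the integral closure of `ℤ_(ℓ)[j]` in
`ℚ(X₀(M)) = modularFunctionFieldFull M`.  For `r ∈ {2, 3}`, a prime `ℓ ≠ r` and `r ∣ M`
(`x` denotes `t_r` as an element of `modularFunctionFieldFull M`):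

* `hauptT*_mem_full`            : `t_r ∈ ℚ(X₀(M))`;
* `haupt_full_two/three`        : `ℚ(X₀(r)) = ℚ(t_r)`;
* `hauptT*_mem_chartAlgFin`     : `t_r, 1/t_r ∈ chartAlgFin M ℓ`;
* `haupt_chartAlgFin_two/three` : `chartAlgFin r ℓ = ℤ_(ℓ)[t_r, 1/t_r]`;
* `haupt_chartAlgFin_integral_*`: `chartAlgFin M ℓ` is the integral closure of `ℤ_(ℓ)[t_r, 1/t_r]` in `ℚ(X₀(M))`;
* `haupt_chartAlgFin_fg_*`      : … and a finitely generated module over it.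

Proofs: `t`, `1/t` are integral over `ℤ_(ℓ)[j]` (`hauptT*_jq`, `r` is a unit of `ℤ_(ℓ)`), `j ∈ ℤ_(ℓ)[t, 1/t]`,
`ℤ_(ℓ)[t, 1/t]` is a Laurent polynomial ring over the PID `ℤ_(ℓ)` (`t` transcendental), hence noetherian and
integrally closed (landed: `Fermat.Agent.S28.QRed.isIntegrallyClosed_ratLoc`, the `IsLocalization` instance there);
`ℚ(t) = ℚ(j, j(q^r))` by the degree argument of piece 4; finiteness from separability (char 0,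
Mathlib `IsIntegralClosure.finite`).
-/

set_option autoImplicit false

namespace Fermat.Agent.S18

open ModularCurve ModularCurve.IgusaScheme

theorem hauptT2_mem_full (M : ℕ) [NeZero M] (hM : 2 ∣ M) :
    hauptT2 ℚ ∈ modularFunctionFieldFull M := by
  exact HAUPT3442.hauptT2_mem_full M hM

theorem hauptT3_mem_full (M : ℕ) [NeZero M] (hM : 3 ∣ M) :
    hauptT3 ℚ ∈ modularFunctionFieldFull M := by
  exact HAUPT3442.hauptT3_mem_full M hM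

/-- `ℚ(X₀(2)) = ℚ(j, j(q²)) = ℚ(t₂)`. -/
theorem haupt_full_two : modularFunctionFieldFull 2 = IntermediateField.adjoin ℚ {hauptT2 ℚ} := by
  exact HAUPT3442.haupt_full_two

/-- `ℚ(X₀(3)) = ℚ(j, j(q³)) = ℚ(t₃)`. -/
theorem haupt_full_three : modularFunctionFieldFull 3 = IntermediateField.adjoin ℚ {hauptT3 ℚ} := by
  exact HAUPT3442.haupt_full_three

variable (ℓ : ℕ) [Fact ℓ.Prime]

/-- `t₂` and `1/t₂` are integral over `ℤ_(ℓ)[j]`, `ℓ ≠ 2`. -/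
theorem hauptT2_mem_chartAlgFin (hℓ : ℓ ≠ 2) (M : ℕ) [NeZero M]
    (x : ↥(modularFunctionFieldFull M)) (hx : (x : LaurentSeries ℚ) = hauptT2 ℚ) :
    x ∈ chartAlgFin M ℓ ∧ x⁻¹ ∈ chartAlgFin M ℓ := by
  exact HAUPT3442.hauptT2_mem_chartAlgFin ℓ hℓ M x hx

/-- `t₃` and `1/t₃` are integral over `ℤ_(ℓ)[j]`, `ℓ ≠ 3`. -/
theorem hauptT3_mem_chartAlgFin (hℓ : ℓ ≠ 3) (M : ℕ) [NeZero M]
    (x : ↥(modularFunctionFieldFull M)) (hx : (x : LaurentSeries ℚ) = hauptT3 ℚ) :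
    x ∈ chartAlgFin M ℓ ∧ x⁻¹ ∈ chartAlgFin M ℓ := by
  exact HAUPT3442.hauptT3_mem_chartAlgFin ℓ hℓ M x hx

/-- `A_fin(2) = ℤ_(ℓ)[t₂, 1/t₂]`, `ℓ ≠ 2`. -/
theorem haupt_chartAlgFin_two (hℓ : ℓ ≠ 2)
    (x : ↥(modularFunctionFieldFull 2)) (hx : (x : LaurentSeries ℚ) = hauptT2 ℚ) :
    chartAlgFin 2 ℓ = Algebra.adjoin ↥(GaloisRep.ratLocalizedAt ℓ) {x, x⁻¹} := by
  exact HAUPT3442.haupt_chartAlgFin_two ℓ hℓ x hx

/-- `A_fin(3) = ℤ_(ℓ)[t₃, 1/t₃]`, `ℓ ≠ 3`. -/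
theorem haupt_chartAlgFin_three (hℓ : ℓ ≠ 3)
    (x : ↥(modularFunctionFieldFull 3)) (hx : (x : LaurentSeries ℚ) = hauptT3 ℚ) :
    chartAlgFin 3 ℓ = Algebra.adjoin ↥(GaloisRep.ratLocalizedAt ℓ) {x, x⁻¹} := by
  exact HAUPT3442.haupt_chartAlgFin_three ℓ hℓ x hx

/-- For `2 ∣ M`, `ℓ ≠ 2`: `A_fin(M)` is the integral closure of `ℤ_(ℓ)[t₂, 1/t₂]` in `ℚ(X₀(M))`. -/
theorem haupt_chartAlgFin_integral_two (hℓ : ℓ ≠ 2) (M : ℕ) [NeZero M]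
    (x : ↥(modularFunctionFieldFull M)) (hx : (x : LaurentSeries ℚ) = hauptT2 ℚ)
    (y : ↥(modularFunctionFieldFull M)) :
    y ∈ chartAlgFin M ℓ ↔
      IsIntegral (Algebra.adjoin ↥(GaloisRep.ratLocalizedAt ℓ) {x, x⁻¹}) y := by
  exact HAUPT3442.haupt_chartAlgFin_integral_two ℓ hℓ M x hx y

/-- For `3 ∣ M`, `ℓ ≠ 3`: `A_fin(M)` is the integral closure of `ℤ_(ℓ)[t₃, 1/t₃]` in `ℚ(X₀(M))`. -/
theorem haupt_chartAlgFin_integral_three (hℓ : ℓ ≠ 3) (M : ℕ) [NeZero M]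
    (x : ↥(modularFunctionFieldFull M)) (hx : (x : LaurentSeries ℚ) = hauptT3 ℚ)
    (y : ↥(modularFunctionFieldFull M)) :
    y ∈ chartAlgFin M ℓ ↔
      IsIntegral (Algebra.adjoin ↥(GaloisRep.ratLocalizedAt ℓ) {x, x⁻¹}) y := by
  exact HAUPT3442.haupt_chartAlgFin_integral_three ℓ hℓ M x hx y

/-- For `2 ∣ M`, `ℓ ≠ 2`: `A_fin(M)` is a finitely generated `ℤ_(ℓ)[t₂, 1/t₂]`-module. -/
theorem haupt_chartAlgFin_fg_two (hℓ : ℓ ≠ 2) (M : ℕ) [NeZero M]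
    (x : ↥(modularFunctionFieldFull M)) (hx : (x : LaurentSeries ℚ) = hauptT2 ℚ) :
    ∃ s : Finset ↥(modularFunctionFieldFull M), ∀ y : ↥(modularFunctionFieldFull M),
      y ∈ chartAlgFin M ℓ ↔
        y ∈ Submodule.span (Algebra.adjoin ↥(GaloisRep.ratLocalizedAt ℓ) {x, x⁻¹})
          (s : Set ↥(modularFunctionFieldFull M)) := by
  exact HAUPT3442.haupt_chartAlgFin_fg_two ℓ hℓ M x hx

/-- For `3 ∣ M`, `ℓ ≠ 3`: `A_fin(M)` is a finitely generated `ℤ_(ℓ)[t₃, 1/t₃]`-module. -/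
theorem haupt_chartAlgFin_fg_three (hℓ : ℓ ≠ 3) (M : ℕ) [NeZero M]
    (x : ↥(modularFunctionFieldFull M)) (hx : (x : LaurentSeries ℚ) = hauptT3 ℚ) :
    ∃ s : Finset ↥(modularFunctionFieldFull M), ∀ y : ↥(modularFunctionFieldFull M),
      y ∈ chartAlgFin M ℓ ↔
        y ∈ Submodule.span (Algebra.adjoin ↥(GaloisRep.ratLocalizedAt ℓ) {x, x⁻¹})
          (s : Set ↥(modularFunctionFieldFull M)) := by
  exact HAUPT3442.haupt_chartAlgFin_fg_three ℓ hℓ M x hx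

end Fermat.Agent.S18
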